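/-
STRASSMANN'S THEOREM (1928).

Let `K` be a complete ultrametric field and let `f(x) = ∑ c_k x^k` be a power series whose
coefficients tend to `0`, so that `f` converges on the closed unit ball.  If `N` is the last index
at which `‖c_k‖` takes its maximal value, then `f` has at most `N` zeros in the closed unit ball.

Consequences: a power series with a non-zero coefficient has only finitely many zeros in the closed
unit ball, the identity theorem, a function with `f(x + 1) = f(x)` is constant (characteristic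
zero), and `f` takes every value only finitely often unless it is constant.

Everything here is over Mathlib alone.
-/
import Mathlib.NumberTheory.Padics.MahlerBasis
import Mathlib.Analysis.Normed.Field.Ultra
import Mathlib.Data.Set.Card
import Mathlib.Data.Prod.Lex

set_option autoImplicit false

namespace Fermat.Agent.Cor.Stra

open Filter Topology

section

variable {K : Type*} [NontriviallyNormedField K]

/-- The value at `x` of the power series with coefficients `c`. -/
noncomputable def val (c : ℕ → K) (x : K) : K := ∑' k, c k * x ^ k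

/-- The coefficients of the quotient `(f(x) - f(α)) / (x - α)`. -/
noncomputable def quo (c : ℕ → K) (α : K) (j : ℕ) : K := ∑' r, c (j + 1 + r) * α ^ r

/-- `N` is the last index at which the norm of the coefficients is maximal (and `c N ≠ 0`). -/
def Dom (c : ℕ → K) (N : ℕ) : Prop :=
  c N ≠ 0 ∧ (∀ k, ‖c k‖ ≤ ‖c N‖) ∧ ∀ k, N < k → ‖c k‖ < ‖c N‖

theorem tendsto_shift {c : ℕ → K} (hc : Tendsto c atTop (𝓝 0)) (j : ℕ) :
    Tendsto (fun r => c (j + r)) atTop (𝓝 0) := by
  have h := (tendsto_add_atTop_iff_nat j).2 hc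
  simpa [add_comm] using h

/-- A null sequence which is not identically zero has a last index of maximal norm. -/
theorem exists_dom {c : ℕ → K} (hc : Tendsto c atTop (𝓝 0)) (hne : c ≠ 0) : ∃ N, Dom c N := by
  obtain ⟨m, hm⟩ : ∃ m, c m ≠ 0 := by
    by_contra h
    push Not at h
    exact hne (funext h)
  have hm' : 0 < ‖c m‖ := norm_pos_iff.2 hm
  have hev : ∀ᶠ k in atTop, ‖c k‖ < ‖c m‖ :=
    (tendsto_zero_iff_norm_tendsto_zero.1 hc).eventually (gt_mem_nhds hm')
  obtain ⟨M, hM⟩ := eventually_atTop.1 hev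
  have hmM : m < M := by
    by_contra h
    exact lt_irrefl _ (hM m (not_lt.1 h))
  obtain ⟨N, -, hN⟩ := (Finset.range M).exists_max_image (fun k => toLex (‖c k‖, k))
    ⟨m, Finset.mem_range.2 hmM⟩
  have hle : ∀ k, ‖c k‖ < ‖c N‖ ∨ (‖c k‖ = ‖c N‖ ∧ k ≤ N) := by
    have h1 : ∀ k, k < M → ‖c k‖ < ‖c N‖ ∨ (‖c k‖ = ‖c N‖ ∧ k ≤ N) := fun k hk => by
      have h := hN k (Finset.mem_range.2 hk)
      rwa [Prod.Lex.toLex_le_toLex] at h
    intro k
    by_cases hk : k < M
    · exact h1 k hk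
    · left
      refine (hM k (not_lt.1 hk)).trans_le ?_
      rcases h1 m hmM with h | h
      · exact h.le
      · exact h.1.le
  refine ⟨N, ?_, fun k => ?_, fun k hk => ?_⟩
  · rw [← norm_pos_iff]
    refine hm'.trans_le ?_
    rcases hle m with h | h
    · exact h.le
    · exact h.1.le
  · rcases hle k with h | h
    · exact h.le
    · exact h.1.le
  · rcases hle k with h | h
    · exact h
    · exact absurd h.2 (not_le.2 hk)

/-- If `c → 0` and `‖c k‖ < B` for all `k > N`, then these norms are bounded by a number `< B`. -/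
theorem exists_bound {c : ℕ → K} (hc : Tendsto c atTop (𝓝 0)) {N : ℕ} {B : ℝ} (hB : 0 < B)
    (h : ∀ k, N < k → ‖c k‖ < B) : ∃ C, 0 ≤ C ∧ C < B ∧ ∀ k, N < k → ‖c k‖ ≤ C := by
  have hev : ∀ᶠ k in atTop, ‖c k‖ < B / 2 :=
    (tendsto_zero_iff_norm_tendsto_zero.1 hc).eventually (gt_mem_nhds (half_pos hB))
  obtain ⟨M, hM⟩ := eventually_atTop.1 hev
  have key : ∀ M : ℕ, (∃ C, 0 ≤ C ∧ C < B ∧ ∀ k, N < k → M ≤ k → ‖c k‖ ≤ C) →
      ∃ C, 0 ≤ C ∧ C < B ∧ ∀ k, N < k → ‖c k‖ ≤ C := by
    intro M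
    induction M with
    | zero => rintro ⟨C, h0, h1, h2⟩; exact ⟨C, h0, h1, fun k hk => h2 k hk (Nat.zero_le _)⟩
    | succ M ih =>
      rintro ⟨C, h0, h1, h2⟩
      apply ih
      by_cases hMN : N < M
      · refine ⟨max C ‖c M‖, le_max_of_le_left h0, max_lt h1 (h M hMN), fun k hk hk' => ?_⟩
        rcases hk'.eq_or_lt with rfl | h3
        · exact le_max_right _ _
        · exact (h2 k hk h3).trans (le_max_left _ _)
      · refine ⟨C, h0, h1, fun k hk hk' => h2 k hk ?_⟩
        omega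
  exact key M ⟨B / 2, (half_pos hB).le, half_lt_self hB, fun k _ hk => (hM k hk).le⟩

variable [CompleteSpace K] [IsUltrametricDist K]

theorem summable_val {c : ℕ → K} (hc : Tendsto c atTop (𝓝 0)) {x : K} (hx : ‖x‖ ≤ 1) :
    Summable fun k => c k * x ^ k := by
  apply NonarchimedeanAddGroup.summable_of_tendsto_cofinite_zero
  rw [Nat.cofinite_eq_atTop]
  rw [tendsto_zero_iff_norm_tendsto_zero] at hc ⊢
  refine squeeze_zero (fun _ => norm_nonneg _) (fun k => ?_) hc
  rw [norm_mul, norm_pow]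
  exact mul_le_of_le_one_right (norm_nonneg _) (pow_le_one₀ (norm_nonneg _) hx)

omit [CompleteSpace K] in
theorem norm_quo_le {c : ℕ → K} {α : K} (hα : ‖α‖ ≤ 1) {j : ℕ} {C : ℝ}
    (h : ∀ k, j < k → ‖c k‖ ≤ C) : ‖quo c α j‖ ≤ C := by
  unfold quo
  refine (IsUltrametricDist.norm_tsum_le _).trans (ciSup_le fun r => ?_)
  rw [norm_mul, norm_pow]
  refine (mul_le_of_le_one_right (norm_nonneg _) (pow_le_one₀ (norm_nonneg _) hα)).trans ?_
  exact h _ (by omega)

theorem quo_succ {c : ℕ → K} (hc : Tendsto c atTop (𝓝 0)) {α : K} (hα : ‖α‖ ≤ 1) (j : ℕ) :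
    quo c α j = c (j + 1) + α * quo c α (j + 1) := by
  have hs := summable_val (tendsto_shift hc (j + 1)) hα
  unfold quo
  rw [hs.tsum_eq_zero_add, ← tsum_mul_left]
  congr 1
  · simp
  · refine tsum_congr fun r => ?_
    rw [show j + 1 + (r + 1) = j + 1 + 1 + r by ring, pow_succ]
    ring

theorem val_eq {c : ℕ → K} (hc : Tendsto c atTop (𝓝 0)) {α : K} (hα : ‖α‖ ≤ 1) :
    val c α = c 0 + α * quo c α 0 := by
  have hs := summable_val hc hα
  unfold val quo
  rw [hs.tsum_eq_zero_add, ← tsum_mul_left]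
  congr 1
  · simp
  · refine tsum_congr fun r => ?_
    rw [show 0 + 1 + r = r + 1 by ring, pow_succ]
    ring

omit [CompleteSpace K] in
theorem tendsto_quo {c : ℕ → K} (hc : Tendsto c atTop (𝓝 0)) {α : K} (hα : ‖α‖ ≤ 1) :
    Tendsto (quo c α) atTop (𝓝 0) := by
  rw [tendsto_zero_iff_norm_tendsto_zero, Metric.tendsto_atTop]
  rw [tendsto_zero_iff_norm_tendsto_zero, Metric.tendsto_atTop] at hc
  intro ε hε
  obtain ⟨M, hM⟩ := hc (ε / 2) (half_pos hε)
  refine ⟨M, fun j hj => ?_⟩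
  rw [dist_zero_right, norm_norm]
  refine lt_of_le_of_lt (norm_quo_le hα fun k hk => ?_) (half_lt_self hε)
  have h := hM k (hj.trans hk.le)
  rw [dist_zero_right, norm_norm] at h
  exact h.le

theorem val_split {c : ℕ → K} (hc : Tendsto c atTop (𝓝 0)) {x : K} (hx : ‖x‖ ≤ 1) :
    val c x = c 0 + ∑' k, c (k + 1) * x ^ (k + 1) := by
  unfold val
  rw [(summable_val hc hx).tsum_eq_zero_add, pow_zero, mul_one]

theorem summable_succ {c : ℕ → K} (hc : Tendsto c atTop (𝓝 0)) {x : K} (hx : ‖x‖ ≤ 1) :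
    Summable fun k => c (k + 1) * x ^ (k + 1) :=
  (summable_nat_add_iff (f := fun k => c k * x ^ k) 1).2 (summable_val hc hx)

theorem tsum_quo {c : ℕ → K} (hc : Tendsto c atTop (𝓝 0)) {α x : K} (hα : ‖α‖ ≤ 1)
    (hx : ‖x‖ ≤ 1) (hb : Tendsto (quo c α) atTop (𝓝 0)) : ∑' k, c (k + 1) * x ^ (k + 1) =
      x * (∑' k, quo c α k * x ^ k) - α * ∑' k, quo c α (k + 1) * x ^ (k + 1) := by
  have e1 : ∀ k, c (k + 1) * x ^ (k + 1) =
      x * (quo c α k * x ^ k) - α * (quo c α (k + 1) * x ^ (k + 1)) := fun k => by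
    rw [quo_succ hc hα k, pow_succ]
    ring
  have e2 : Summable fun k => x * (quo c α k * x ^ k) := (summable_val hb hx).mul_left x
  have e3 : Summable fun k => α * (quo c α (k + 1) * x ^ (k + 1)) :=
    (summable_succ hb hx).mul_left α
  rw [tsum_congr e1, e2.tsum_sub e3, tsum_mul_left, tsum_mul_left]

/-- Division by `x - α`:  `f(x) = f(α) + (x - α) g(x)`, where `g` has the coefficients `quo c α`. -/
theorem val_eq_add_mul {c : ℕ → K} (hc : Tendsto c atTop (𝓝 0)) {α x : K} (hα : ‖α‖ ≤ 1)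
    (hx : ‖x‖ ≤ 1) : val c x = val c α + (x - α) * val (quo c α) x := by
  have hb := tendsto_quo hc hα
  have h1 := val_split hb hx
  have h2 := val_split hc hx
  have h3 := tsum_quo hc hα hx hb
  have h4 : (∑' k, quo c α k * x ^ k) = val (quo c α) x := rfl
  have h5 := val_eq hc hα
  rw [h4] at h3
  generalize (∑' k, quo c α (k + 1) * x ^ (k + 1)) = T at h1 h3
  generalize (∑' k, c (k + 1) * x ^ (k + 1)) = U at h2 h3
  rw [h2, h3, h5, h1]
  ring

/-- The quotient has its last maximal coefficient one step earlier. -/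
theorem dom_quo {c : ℕ → K} (hc : Tendsto c atTop (𝓝 0)) {N : ℕ} (h : Dom c (N + 1)) {α : K}
    (hα : ‖α‖ ≤ 1) : Dom (quo c α) N := by
  obtain ⟨hne, hle, hlt⟩ := h
  obtain ⟨C, h0, hC, hk⟩ := exists_bound hc (norm_pos_iff.2 hne) hlt
  have h1 : ∀ j, N < j → ‖quo c α j‖ ≤ C := fun j hj =>
    norm_quo_le hα fun k hjk => hk k (by omega)
  have h2 : ‖α * quo c α (N + 1)‖ < ‖c (N + 1)‖ := by
    rw [norm_mul]
    refine lt_of_le_of_lt ?_ hC
    calc ‖α‖ * ‖quo c α (N + 1)‖ ≤ 1 * C :=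
          mul_le_mul hα (h1 _ (by omega)) (norm_nonneg _) zero_le_one
      _ = C := one_mul _
  have h3 : ‖quo c α N‖ = ‖c (N + 1)‖ := by
    rw [quo_succ hc hα, IsUltrametricDist.norm_add_eq_max_of_norm_ne_norm h2.ne', max_eq_left h2.le]
  refine ⟨?_, fun k => ?_, fun k hNk => ?_⟩
  · rw [← norm_ne_zero_iff, h3]
    exact norm_ne_zero_iff.2 hne
  · rw [h3]
    exact norm_quo_le hα fun k _ => hle k
  · rw [h3]
    exact (h1 k hNk).trans_lt hC

/-- No zero in the closed unit ball if the constant term dominates. -/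
theorem val_ne_zero {c : ℕ → K} (hc : Tendsto c atTop (𝓝 0)) (h : Dom c 0) {x : K}
    (hx : ‖x‖ ≤ 1) : val c x ≠ 0 := by
  obtain ⟨hne, -, hlt⟩ := h
  obtain ⟨C, h0, hC, hk⟩ := exists_bound hc (norm_pos_iff.2 hne) hlt
  intro hv
  rw [val_eq hc hx] at hv
  have h1 : ‖c 0‖ = ‖x * quo c x 0‖ := by
    rw [eq_neg_of_add_eq_zero_left hv, norm_neg]
  have h2 : ‖x * quo c x 0‖ ≤ C := by
    rw [norm_mul]
    calc ‖x‖ * ‖quo c x 0‖ ≤ 1 * C :=
          mul_le_mul hx (norm_quo_le hx hk) (norm_nonneg _) zero_le_one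
      _ = C := one_mul _
  exact absurd (h1.le.trans h2) (not_le.2 hC)

/-- **Strassmann's theorem**, with the function `val`. -/
theorem encard_zeros_le {N : ℕ} : ∀ {c : ℕ → K}, Tendsto c atTop (𝓝 0) → Dom c N →
    {x : K | ‖x‖ ≤ 1 ∧ val c x = 0}.encard ≤ N := by
  induction N with
  | zero =>
    intro c hc h
    have he : {x : K | ‖x‖ ≤ 1 ∧ val c x = 0} = ∅ := by
      ext x
      simp only [Set.mem_ofPred_eq, Set.mem_empty_iff_false, iff_false, not_and]
      exact fun hx => val_ne_zero hc h hx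
    rw [he]
    simp
  | succ N ih =>
    intro c hc h
    rcases Set.eq_empty_or_nonempty {x : K | ‖x‖ ≤ 1 ∧ val c x = 0} with he | ⟨α, hα, hα0⟩
    · rw [he]
      simp
    · have hsub : {x : K | ‖x‖ ≤ 1 ∧ val c x = 0} ⊆
          insert α {x : K | ‖x‖ ≤ 1 ∧ val (quo c α) x = 0} := by
        rintro x ⟨hx, hx0⟩
        rw [val_eq_add_mul hc hα hx, hα0, zero_add, mul_eq_zero] at hx0
        rcases hx0 with h1 | h1
        · left
          exact sub_eq_zero.1 h1
        · right
          exact ⟨hx, h1⟩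
      refine (Set.encard_le_encard hsub).trans ((Set.encard_insert_le _ _).trans ?_)
      have h2 := ih (tendsto_quo hc hα) (dom_quo hc h hα)
      push_cast
      gcongr

end

section statements

variable {K : Type*} [NontriviallyNormedField K] [CompleteSpace K] [IsUltrametricDist K]

/-- **Strassmann's theorem**: let `c_k → 0` in a complete ultrametric field, and let `N` be an index
with `c_N ≠ 0`, `‖c_k‖ ≤ ‖c_N‖` for all `k` and `‖c_k‖ < ‖c_N‖` for all `k > N`.  Then the power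
series `∑ c_k x^k` has at most `N` zeros in the closed unit ball. -/
theorem strassmann {c : ℕ → K} (hc : Tendsto c atTop (𝓝 0)) {N : ℕ} (hN : c N ≠ 0)
    (hle : ∀ k, ‖c k‖ ≤ ‖c N‖) (hlt : ∀ k, N < k → ‖c k‖ < ‖c N‖) :
    {x : K | ‖x‖ ≤ 1 ∧ ∑' k, c k * x ^ k = 0}.encard ≤ N :=
  encard_zeros_le hc ⟨hN, hle, hlt⟩

/-- A power series with coefficients tending to `0`, not all zero, has only finitely many zeros in
the closed unit ball. -/
theorem finite_zeros {c : ℕ → K} (hc : Tendsto c atTop (𝓝 0)) (hne : ∃ k, c k ≠ 0) :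
    {x : K | ‖x‖ ≤ 1 ∧ ∑' k, c k * x ^ k = 0}.Finite := by
  obtain ⟨N, hN⟩ := exists_dom hc (fun h => by
    obtain ⟨k, hk⟩ := hne
    exact hk (congrFun h k))
  exact Set.finite_of_encard_le_coe (encard_zeros_le hc hN)

/-- **Identity theorem** on the closed unit ball of a complete ultrametric field: two convergent
power series which agree at infinitely many points have the same coefficients. -/
theorem eq_of_infinite {c d : ℕ → K} (hc : Tendsto c atTop (𝓝 0)) (hd : Tendsto d atTop (𝓝 0))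
    (h : {x : K | ‖x‖ ≤ 1 ∧ ∑' k, c k * x ^ k = ∑' k, d k * x ^ k}.Infinite) : c = d := by
  by_contra hcd
  have hsub : Tendsto (c - d) atTop (𝓝 0) := by
    have h0 := hc.sub hd
    rw [sub_zero] at h0
    exact h0
  have hne : ∃ k, (c - d) k ≠ 0 := by
    by_contra h1
    push Not at h1
    exact hcd (funext fun k => sub_eq_zero.1 (h1 k))
  refine h ((finite_zeros hsub hne).subset ?_)
  rintro x ⟨hx, hx1⟩
  refine ⟨hx, ?_⟩
  have h2 := (summable_val hc hx).tsum_sub (summable_val hd hx)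
  rw [hx1, sub_self] at h2
  rw [← h2]
  refine tsum_congr fun k => ?_
  rw [Pi.sub_apply]
  ring

/-- A convergent power series which is not constant takes every value at most finitely often on
the closed unit ball. -/
theorem finite_fibre {c : ℕ → K} (hc : Tendsto c atTop (𝓝 0)) (hne : ∃ k, 0 < k ∧ c k ≠ 0)
    (a : K) : {x : K | ‖x‖ ≤ 1 ∧ ∑' k, c k * x ^ k = a}.Finite := by
  by_contra hinf
  obtain ⟨k, hk, hck⟩ := hne
  set d : ℕ → K := Pi.single 0 a with hd
  have hd0 : Tendsto d atTop (𝓝 0) := by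
    refine tendsto_const_nhds.congr' ?_
    filter_upwards [eventually_gt_atTop 0] with j hj
    rw [hd, Pi.single_eq_of_ne hj.ne']
  have hdv : ∀ x : K, ∑' k, d k * x ^ k = a := fun x => by
    rw [tsum_eq_single 0 (fun j hj => by rw [hd, Pi.single_eq_of_ne hj, zero_mul])]
    simp [hd]
  have h := eq_of_infinite hc hd0 (by
    refine Set.Infinite.mono ?_ hinf
    rintro x ⟨hx, hx1⟩
    exact ⟨hx, by rw [hx1, hdv]⟩)
  apply hck
  rw [h, hd, Pi.single_eq_of_ne hk.ne']

/-- In characteristic zero a convergent power series with `f(x + 1) = f(x)` on the closed unit ball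
is constant. -/
theorem eq_zero_of_periodic [CharZero K] {c : ℕ → K} (hc : Tendsto c atTop (𝓝 0))
    (h : ∀ x : K, ‖x‖ ≤ 1 → ∑' k, c k * (x + 1) ^ k = ∑' k, c k * x ^ k) {k : ℕ} (hk : 0 < k) :
    c k = 0 := by
  by_contra hck
  have h1 : ∀ n : ℕ, ∑' k, c k * ((n : K)) ^ k = ∑' k, c k * (0 : K) ^ k := by
    intro n
    induction n with
    | zero => simp
    | succ n ih => rw [Nat.cast_succ, h _ (IsUltrametricDist.norm_natCast_le_one K n), ih]
  refine (Set.infinite_range_of_injective (Nat.cast_injective (R := K))) ?_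
  refine (finite_fibre hc ⟨k, hk, hck⟩ (∑' k, c k * (0 : K) ^ k)).subset ?_
  rintro _ ⟨n, rfl⟩
  exact ⟨IsUltrametricDist.norm_natCast_le_one K n, h1 n⟩

end statements

section padic

variable {p : ℕ} [Fact p.Prime]

/-- **Strassmann's theorem** for `ℤ_p`. -/
theorem strassmann_padicInt {c : ℕ → ℚ_[p]} (hc : Tendsto c atTop (𝓝 0)) {N : ℕ} (hN : c N ≠ 0)
    (hle : ∀ k, ‖c k‖ ≤ ‖c N‖) (hlt : ∀ k, N < k → ‖c k‖ < ‖c N‖) :
    {x : ℤ_[p] | ∑' k, c k * (x : ℚ_[p]) ^ k = 0}.encard ≤ N := by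
  have hinj : Function.Injective (fun x : ℤ_[p] => (x : ℚ_[p])) := fun x y h => PadicInt.ext h
  rw [← hinj.encard_image {x : ℤ_[p] | ∑' k, c k * (x : ℚ_[p]) ^ k = 0}]
  refine (Set.encard_le_encard ?_).trans (strassmann hc hN hle hlt)
  rintro _ ⟨x, hx, rfl⟩
  exact ⟨x.2, hx⟩

/-- A `p`-adic power series converging on `ℤ_p` and vanishing at infinitely many integers is
zero. -/
theorem eq_zero_of_infinite_nat {c : ℕ → ℚ_[p]} (hc : Tendsto c atTop (𝓝 0))
    (h : {n : ℕ | ∑' k, c k * (n : ℚ_[p]) ^ k = 0}.Infinite) : c = 0 := by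
  by_contra hne
  have hne' : ∃ k, c k ≠ 0 := by
    by_contra h1
    push Not at h1
    exact hne (funext h1)
  refine (h.image (f := ((↑) : ℕ → ℚ_[p])) (Nat.cast_injective.injOn)) ?_
  refine (finite_zeros hc hne').subset ?_
  rintro _ ⟨n, hn, rfl⟩
  exact ⟨IsUltrametricDist.norm_natCast_le_one ℚ_[p] n, hn⟩

end padic

end Fermat.Agent.Cor.Stra
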