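/-
STRASSMANN'S THEOREM, continued: discs of any radius, entire functions, periods, and the fibres.
-/
import Fermat.Agent.Corollaries.Stra.Main
import Mathlib.Data.Set.Countable

set_option autoImplicit false

namespace Fermat.Agent.Cor.Stra

open Filter Topology

variable {K : Type*} [NontriviallyNormedField K] [CompleteSpace K] [IsUltrametricDist K]

omit [CompleteSpace K] [IsUltrametricDist K] in
/-- The zeros in the disc of radius `‖ω‖` are the multiples by `ω` of those of `f(ω x)` in the unit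
disc. -/
theorem zeros_eq_image {c : ℕ → K} {ω : K} (hω : ω ≠ 0) :
    {x : K | ‖x‖ ≤ ‖ω‖ ∧ ∑' k, c k * x ^ k = 0} =
      (fun y => ω * y) '' {y : K | ‖y‖ ≤ 1 ∧ ∑' k, c k * ω ^ k * y ^ k = 0} := by
  have hω' : 0 < ‖ω‖ := norm_pos_iff.2 hω
  have hsum : ∀ y : K, ∑' k, c k * (ω * y) ^ k = ∑' k, c k * ω ^ k * y ^ k := fun y =>
    tsum_congr fun k => by rw [mul_pow, mul_assoc]
  ext x
  constructor
  · rintro ⟨hx, hx0⟩
    refine ⟨x / ω, ⟨?_, ?_⟩, mul_div_cancel₀ x hω⟩
    · rw [norm_div]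
      exact (div_le_one hω').2 hx
    · rw [← hsum, mul_div_cancel₀ x hω]
      exact hx0
  · rintro ⟨y, ⟨hy, hy0⟩, rfl⟩
    refine ⟨?_, ?_⟩
    · change ‖ω * y‖ ≤ ‖ω‖
      rw [norm_mul]
      exact mul_le_of_le_one_right (norm_nonneg _) hy
    · exact (hsum y).trans hy0

/-- **Strassmann's theorem** on the closed disc of radius `‖ω‖`. -/
theorem strassmann_disc {c : ℕ → K} {ω : K} (hω : ω ≠ 0)
    (hc : Tendsto (fun k => c k * ω ^ k) atTop (𝓝 0)) {N : ℕ} (hN : c N ≠ 0)
    (hle : ∀ k, ‖c k‖ * ‖ω‖ ^ k ≤ ‖c N‖ * ‖ω‖ ^ N)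
    (hlt : ∀ k, N < k → ‖c k‖ * ‖ω‖ ^ k < ‖c N‖ * ‖ω‖ ^ N) :
    {x : K | ‖x‖ ≤ ‖ω‖ ∧ ∑' k, c k * x ^ k = 0}.encard ≤ N := by
  rw [zeros_eq_image hω, (mul_right_injective₀ hω).encard_image]
  refine strassmann hc (mul_ne_zero hN (pow_ne_zero _ hω)) (fun k => ?_) fun k hk => ?_
  · rw [norm_mul, norm_pow, norm_mul, norm_pow]
    exact hle k
  · rw [norm_mul, norm_pow, norm_mul, norm_pow]
    exact hlt k hk

/-- A power series which converges at `ω ≠ 0` and is not identically zero has finitely many zeros in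
the closed disc of radius `‖ω‖`. -/
theorem finite_zeros_disc {c : ℕ → K} {ω : K} (hω : ω ≠ 0)
    (hc : Tendsto (fun k => c k * ω ^ k) atTop (𝓝 0)) (hne : ∃ k, c k ≠ 0) :
    {x : K | ‖x‖ ≤ ‖ω‖ ∧ ∑' k, c k * x ^ k = 0}.Finite := by
  rw [zeros_eq_image hω]
  refine (finite_zeros hc ?_).image _
  obtain ⟨k, hk⟩ := hne
  exact ⟨k, mul_ne_zero hk (pow_ne_zero _ hω)⟩

/-- The zeros of an entire function which is not identically zero are countable in number. -/
theorem countable_zeros {c : ℕ → K} (hc : ∀ x : K, Tendsto (fun k => c k * x ^ k) atTop (𝓝 0))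
    (hne : ∃ k, c k ≠ 0) : {x : K | ∑' k, c k * x ^ k = 0}.Countable := by
  obtain ⟨a, ha⟩ := NormedField.exists_one_lt_norm K
  have ha0 : a ≠ 0 := by
    rintro rfl
    rw [norm_zero] at ha
    exact absurd ha (by norm_num)
  have hsub : {x : K | ∑' k, c k * x ^ k = 0} ⊆
      ⋃ n : ℕ, {x : K | ‖x‖ ≤ ‖a ^ n‖ ∧ ∑' k, c k * x ^ k = 0} := by
    intro x hx
    obtain ⟨n, hn⟩ := pow_unbounded_of_one_lt ‖x‖ ha
    refine Set.mem_iUnion.2 ⟨n, ?_, hx⟩
    rw [norm_pow]
    exact hn.le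
  refine (Set.countable_iUnion fun n => ?_).mono hsub
  exact (finite_zeros_disc (pow_ne_zero n ha0) (hc _) hne).countable

/-- **There are no periodic ultrametric analytic functions** in characteristic zero: if
`f(x + ω) = f(x)` on the closed disc of radius `‖ω‖`, then `f` is constant. -/
theorem eq_zero_of_period [CharZero K] {c : ℕ → K} {ω : K} (hω : ω ≠ 0)
    (hc : Tendsto (fun k => c k * ω ^ k) atTop (𝓝 0))
    (h : ∀ x : K, ‖x‖ ≤ ‖ω‖ → ∑' k, c k * (x + ω) ^ k = ∑' k, c k * x ^ k) {k : ℕ}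
    (hk : 0 < k) : c k = 0 := by
  have h1 : c k * ω ^ k = 0 := by
    refine eq_zero_of_periodic (c := fun k => c k * ω ^ k) hc (fun x hx => ?_) hk
    have h2 : ∀ y : K, ∑' k, c k * ω ^ k * y ^ k = ∑' k, c k * (ω * y) ^ k := fun y =>
      tsum_congr fun k => by rw [mul_pow, mul_assoc]
    rw [h2, h2, mul_add, mul_one]
    refine h _ ?_
    rw [norm_mul]
    exact mul_le_of_le_one_right (norm_nonneg _) hx
  exact (mul_eq_zero.1 h1).resolve_right (pow_ne_zero _ hω)

/-- **The fibres**: if `N > 0` is the last index `> 0` at which the norm of the coefficients of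
positive index is maximal, `f` takes every value at most `N` times on the closed unit ball. -/
theorem encard_fibre_le {c : ℕ → K} (hc : Tendsto c atTop (𝓝 0)) {N : ℕ} (hN0 : 0 < N)
    (hN : c N ≠ 0) (hle : ∀ k, 0 < k → ‖c k‖ ≤ ‖c N‖) (hlt : ∀ k, N < k → ‖c k‖ < ‖c N‖) (a : K) :
    {x : K | ‖x‖ ≤ 1 ∧ ∑' k, c k * x ^ k = a}.encard ≤ N := by
  set d : ℕ → K := Function.update c 0 (c 0 - a) with hd
  have hd0 : d 0 = c 0 - a := Function.update_self ..
  have hdk : ∀ k, k ≠ 0 → d k = c k := fun k hk => Function.update_of_ne hk ..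
  have hdc : Tendsto d atTop (𝓝 0) := by
    refine hc.congr' ?_
    filter_upwards [eventually_gt_atTop 0] with k hk
    rw [hdk k hk.ne']
  have hval : ∀ x : K, ‖x‖ ≤ 1 → ∑' k, d k * x ^ k = ∑' k, c k * x ^ k - a := by
    intro x hx
    rw [(summable_val hdc hx).tsum_eq_zero_add, (summable_val hc hx).tsum_eq_zero_add, hd0,
      pow_zero, mul_one, mul_one]
    have h1 : ∑' k, d (k + 1) * x ^ (k + 1) = ∑' k, c (k + 1) * x ^ (k + 1) :=
      tsum_congr fun k => by rw [hdk (k + 1) (Nat.succ_ne_zero k)]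
    rw [h1]
    ring
  have hset : {x : K | ‖x‖ ≤ 1 ∧ ∑' k, c k * x ^ k = a} =
      {x : K | ‖x‖ ≤ 1 ∧ ∑' k, d k * x ^ k = 0} := by
    ext x
    constructor
    · rintro ⟨hx, hx1⟩
      exact ⟨hx, by rw [hval x hx, hx1, sub_self]⟩
    · rintro ⟨hx, hx1⟩
      rw [hval x hx] at hx1
      exact ⟨hx, sub_eq_zero.1 hx1⟩
  rw [hset]
  have hdN : d N = c N := hdk N hN0.ne'
  by_cases hcase : ‖c 0 - a‖ ≤ ‖c N‖
  · refine strassmann hdc (by rw [hdN]; exact hN) (fun k => ?_) fun k hk => ?_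
    · rw [hdN]
      rcases Nat.eq_zero_or_pos k with rfl | hk
      · rw [hd0]
        exact hcase
      · rw [hdk k hk.ne']
        exact hle k hk
    · rw [hdN, hdk k (by omega)]
      exact hlt k hk
  · have hcase' := not_le.1 hcase
    refine (strassmann (N := 0) hdc ?_ (fun k => ?_) fun k hk => ?_).trans (by simp)
    · rw [hd0, ← norm_pos_iff]
      exact (norm_nonneg _).trans_lt hcase'
    · rcases Nat.eq_zero_or_pos k with rfl | hk
      · exact le_rfl
      · rw [hd0, hdk k hk.ne']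
        exact (hle k hk).trans hcase'.le
    · rw [hd0, hdk k hk.ne']
      exact (hle k hk).trans_lt hcase'

/-- A convergent power series which is not constant takes every value at most `N` times on the
closed unit ball, with the same `N` for all values. -/
theorem exists_encard_fibre_le {c : ℕ → K} (hc : Tendsto c atTop (𝓝 0))
    (hne : ∃ k, 0 < k ∧ c k ≠ 0) :
    ∃ N : ℕ, ∀ a : K, {x : K | ‖x‖ ≤ 1 ∧ ∑' k, c k * x ^ k = a}.encard ≤ N := by
  have h1 : Tendsto (fun k => c (1 + k)) atTop (𝓝 0) := tendsto_shift hc 1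
  obtain ⟨M, hM, hle, hlt⟩ := exists_dom h1 (by
    intro h0
    obtain ⟨k, hk, hck⟩ := hne
    apply hck
    have h2 := congrFun h0 (k - 1)
    have h3 : 1 + (k - 1) = k := by omega
    simpa [h3] using h2)
  refine ⟨1 + M, fun a => encard_fibre_le hc (by omega) hM (fun k hk => ?_) (fun k hk => ?_) a⟩
  · have h2 := hle (k - 1)
    have h3 : 1 + (k - 1) = k := by omega
    simpa [h3] using h2
  · have h2 := hlt (k - 1) (by omega)
    have h3 : 1 + (k - 1) = k := by omega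
    simpa [h3] using h2

/-- If `‖c_k‖ < ‖c_1‖` for all `k > 1`, then `f` is injective on the closed unit ball. -/
theorem injOn_of_lt {c : ℕ → K} (hc : Tendsto c atTop (𝓝 0)) (hlt : ∀ k, 1 < k → ‖c k‖ < ‖c 1‖)
    (h1 : c 1 ≠ 0) : Set.InjOn (fun x => ∑' k, c k * x ^ k) {x : K | ‖x‖ ≤ 1} := by
  intro x hx y hy hxy
  have h := encard_fibre_le hc one_pos h1 (fun k hk => by
    rcases (Nat.succ_le_of_lt hk).eq_or_lt with h | h
    · subst h
      exact le_rfl
    · exact (hlt k h).le) hlt (∑' k, c k * y ^ k)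
  rw [Nat.cast_one, Set.encard_le_one_iff] at h
  exact h x y ⟨hx, hxy⟩ ⟨hy, rfl⟩

end Fermat.Agent.Cor.Stra
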