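/-
STRASSMANN'S THEOREM, continued: the inverse function theorem for power series over a complete
ultrametric field.
-/
import Fermat.Agent.Corollaries.Stra.Disc
import Mathlib.Topology.MetricSpace.Contracting

set_option autoImplicit false

namespace Fermat.Agent.Cor.Stra

open Filter Topology

variable {K : Type*} [NontriviallyNormedField K] [CompleteSpace K] [IsUltrametricDist K]

/-- If `‖c_k‖ ≤ C` for `k > 1`, then `f(x) - f(y)` is `c₁ (x - y)` up to `C ‖x - y‖`. -/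
theorem norm_sub_sub_le {c : ℕ → K} (hc : Tendsto c atTop (𝓝 0)) {C : ℝ}
    (hC : ∀ k, 1 < k → ‖c k‖ ≤ C) {x y : K} (hx : ‖x‖ ≤ 1) (hy : ‖y‖ ≤ 1) :
    ‖val c x - val c y - c 1 * (x - y)‖ ≤ C * ‖x - y‖ := by
  have hC0 : 0 ≤ C := (norm_nonneg _).trans (hC 2 (by norm_num))
  have hb := tendsto_quo hc hy
  have h1 : ∀ j, 0 < j → ‖quo c y j‖ ≤ C := fun j hj =>
    norm_quo_le hy fun k hk => hC k (by omega)
  have h2 : ‖quo (quo c y) x 0‖ ≤ C := norm_quo_le hx fun k hk => h1 k hk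
  have e : val c x - val c y - c 1 * (x - y) =
      (x - y) * (y * quo c y 1 + x * quo (quo c y) x 0) := by
    rw [val_eq_add_mul hc hy hx, val_eq hb hx, quo_succ hc hy 0]
    ring
  have h3 : ‖y * quo c y 1 + x * quo (quo c y) x 0‖ ≤ C := by
    refine (IsUltrametricDist.norm_add_le_max _ _).trans (max_le ?_ ?_)
    · rw [norm_mul]
      exact (mul_le_of_le_one_left (norm_nonneg _) hy).trans (h1 1 one_pos)
    · rw [norm_mul]
      exact (mul_le_of_le_one_left (norm_nonneg _) hx).trans h2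
  rw [e, norm_mul, mul_comm]
  exact mul_le_mul_of_nonneg_right h3 (norm_nonneg _)

/-- If `‖c_k‖ < ‖c_1‖` for all `k > 1`, then `‖f(x) - f(y)‖ = ‖c_1‖ ‖x - y‖` on the closed unit
ball. -/
theorem norm_sub_eq {c : ℕ → K} (hc : Tendsto c atTop (𝓝 0)) (h1 : c 1 ≠ 0)
    (hlt : ∀ k, 1 < k → ‖c k‖ < ‖c 1‖) {x y : K} (hx : ‖x‖ ≤ 1) (hy : ‖y‖ ≤ 1) :
    ‖∑' k, c k * x ^ k - ∑' k, c k * y ^ k‖ = ‖c 1‖ * ‖x - y‖ := by
  obtain ⟨C, h0, hC, hk⟩ := exists_bound hc (norm_pos_iff.2 h1) hlt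
  rcases eq_or_ne x y with rfl | hne
  · simp
  have hxy : 0 < ‖x - y‖ := norm_pos_iff.2 (sub_ne_zero.2 hne)
  have h2 := norm_sub_sub_le hc hk hx hy
  have h3 : ‖val c x - val c y - c 1 * (x - y)‖ < ‖c 1 * (x - y)‖ := by
    rw [norm_mul]
    exact h2.trans_lt (mul_lt_mul_of_pos_right hC hxy)
  have h4 : val c x - val c y = (val c x - val c y - c 1 * (x - y)) + c 1 * (x - y) := by ring
  change ‖val c x - val c y‖ = _
  rw [h4, IsUltrametricDist.norm_add_eq_max_of_norm_ne_norm h3.ne, max_eq_right h3.le, norm_mul]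

/-- **The inverse function theorem**: if `c_1 ≠ 0` and `‖c_k‖ < ‖c_1‖` for all `k > 1`, then
`f(x) = y` has exactly one solution in the closed unit ball for every `y` with
`‖y - c_0‖ ≤ ‖c_1‖`. -/
theorem existsUnique_eq {c : ℕ → K} (hc : Tendsto c atTop (𝓝 0)) (h1 : c 1 ≠ 0)
    (hlt : ∀ k, 1 < k → ‖c k‖ < ‖c 1‖) {y : K} (hy : ‖y - c 0‖ ≤ ‖c 1‖) :
    ∃! x : K, ‖x‖ ≤ 1 ∧ ∑' k, c k * x ^ k = y := by
  obtain ⟨C, h0, hC, hk⟩ := exists_bound hc (norm_pos_iff.2 h1) hlt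
  have hc1 : 0 < ‖c 1‖ := norm_pos_iff.2 h1
  -- the map of Newton
  let g : K → K := fun x => x - (val c x - y) / c 1
  have hval0 : val c 0 = c 0 := by
    rw [val_eq hc (by simp : ‖(0 : K)‖ ≤ 1), zero_mul, add_zero]
  have hg : ∀ x z : K, ‖x‖ ≤ 1 → ‖z‖ ≤ 1 → ‖g x - g z‖ ≤ C / ‖c 1‖ * ‖x - z‖ := by
    intro x z hx hz
    have e : g x - g z = -((val c x - val c z - c 1 * (x - z)) / c 1) := by
      simp only [g]
      field_simp
      ring
    rw [e, norm_neg, norm_div, div_mul_eq_mul_div]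
    exact div_le_div_of_nonneg_right (norm_sub_sub_le hc hk hx hz) hc1.le
  have hC1 : C / ‖c 1‖ < 1 := (div_lt_one hc1).2 hC
  have hmaps : Set.MapsTo g (Metric.closedBall 0 1) (Metric.closedBall 0 1) := by
    intro x hx
    rw [mem_closedBall_zero_iff] at hx ⊢
    have e : g x = (g x - g 0) + g 0 := by ring
    rw [e]
    refine (IsUltrametricDist.norm_add_le_max _ _).trans (max_le ?_ ?_)
    · refine (hg x 0 hx (by simp)).trans ?_
      rw [sub_zero]
      exact mul_le_one₀ hC1.le (norm_nonneg _) hx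
    · simp only [g]
      rw [hval0, zero_sub, norm_neg, norm_div, norm_sub_rev]
      exact (div_le_one hc1).2 hy
  have hcontr : ContractingWith ⟨C / ‖c 1‖, by positivity⟩
      (hmaps.restrict g (Metric.closedBall (0 : K) 1) (Metric.closedBall 0 1)) := by
    refine ⟨?_, ?_⟩
    · exact_mod_cast hC1
    · refine LipschitzWith.of_dist_le_mul fun x z => ?_
      have h2 := hg x.1 z.1 (mem_closedBall_zero_iff.1 x.2) (mem_closedBall_zero_iff.1 z.2)
      rw [Subtype.dist_eq, Subtype.dist_eq, dist_eq_norm, dist_eq_norm]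
      exact h2
  obtain ⟨x, hxs, hfix, -, -⟩ := hcontr.exists_fixedPoint'
    (Metric.isClosed_closedBall.isComplete) hmaps
    (x := (0 : K)) (by simp) (edist_ne_top _ _)
  have hx1 : ‖x‖ ≤ 1 := mem_closedBall_zero_iff.1 hxs
  have hxv : val c x = y := by
    have h2 : x - (val c x - y) / c 1 = x := hfix
    have h3 : (val c x - y) / c 1 = 0 := by linear_combination -h2
    rcases div_eq_zero_iff.1 h3 with h4 | h4
    · exact sub_eq_zero.1 h4
    · exact absurd h4 h1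
  refine ⟨x, ⟨hx1, hxv⟩, ?_⟩
  rintro z ⟨hz, hzv⟩
  exact injOn_of_lt hc hlt h1 hz hx1 (hzv.trans hxv.symm)

/-- The image of the closed unit ball is the closed disc of radius `‖c_1‖` around `c_0`. -/
theorem bijOn_disc {c : ℕ → K} (hc : Tendsto c atTop (𝓝 0)) (h1 : c 1 ≠ 0)
    (hlt : ∀ k, 1 < k → ‖c k‖ < ‖c 1‖) :
    Set.BijOn (fun x => ∑' k, c k * x ^ k) {x : K | ‖x‖ ≤ 1} {y : K | ‖y - c 0‖ ≤ ‖c 1‖} := by
  refine ⟨fun x hx => ?_, injOn_of_lt hc hlt h1, fun y hy => ?_⟩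
  · have h2 := norm_sub_eq hc h1 hlt hx (y := 0) (by simp)
    have h3 : ∑' k, c k * (0 : K) ^ k = c 0 := by
      rw [tsum_eq_single 0 (fun k hk => by rw [zero_pow hk, mul_zero])]
      simp
    rw [h3, sub_zero] at h2
    change ‖∑' k, c k * x ^ k - c 0‖ ≤ ‖c 1‖
    rw [h2]
    exact mul_le_of_le_one_right (norm_nonneg _) hx
  · obtain ⟨x, ⟨hx, hxy⟩, -⟩ := existsUnique_eq hc h1 hlt hy
    exact ⟨x, hx, hxy⟩

end Fermat.Agent.Cor.Stra
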